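import Mathlib
import Fermat.Prelude.Def_AlgebraicCurve_DivisorPushPull

/-!
# P-ES / ES-D glue: torsion-class uniqueness and auxiliary levels (helper96)

Pure divisor algebra over the prelude definitions `Place`, `Divisor`, `pullback`,
`pushforward`.

* `Divisor.eq_of_agree_on_principal_of_nsmul_mem` (**L1**): two homomorphisms from divisors to a
  torsion-free group which agree on principal divisors agree on every divisor a multiple of
  which is principal.
* `Divisor.pushforward_pullback`: `π_* π^* D = [F' : F] • D`.
* `Divisor.mem_principal_of_pullback_mem_principal` (**L2**): if `π^* D` is principal, `m • D`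
  is principal and `m` is prime to `[F' : F]`, then `D` is principal.
* `Divisor.mem_principal_of_auxLevel`: the abstract form of "S18 at an auxiliary level implies
  S18".
-/

set_option autoImplicit false

noncomputable section

namespace Fermat.Agent.H96

open AlgebraicCurve

section L1

variable {K F : Type*} [Field K] [Field F] [Algebra K F]

/-- **(L1)** Two additive maps from divisors to a torsion-free group which agree on principal
divisors agree on every divisor of torsion class. -/
theorem eq_of_agree_on_principal_of_nsmul_mem {G : Type*} [AddCommGroup G]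
    [IsAddTorsionFree G] (Φ₁ Φ₂ : Divisor K F →+ G)
    (h : ∀ D ∈ Divisor.principal (K := K) (F := F), Φ₁ D = Φ₂ D)
    {m : ℕ} (hm : m ≠ 0) {D : Divisor K F}
    (hD : m • D ∈ Divisor.principal (K := K) (F := F)) : Φ₁ D = Φ₂ D := by
  have h1 := h _ hD
  rw [map_nsmul, map_nsmul] at h1
  exact nsmul_right_injective hm h1

end L1

section PushPull

variable {K F F' : Type*} [Field K] [Field F] [Field F']
  [Algebra K F] [Algebra K F'] [Algebra F F'] [IsScalarTower K F F']
  [Algebra.IsIntegral F F'] [HasPrincipalDivisors K F']

/-- `π_* π^* = [F' : F]` on divisors. -/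
theorem pushforward_pullback [SumRamificationInertia K F F'] (D : Divisor K F) :
    Divisor.pushforward F (Divisor.pullback F' D) = (Module.finrank F F') • D := by
  induction D using Finsupp.induction with
  | zero => simp
  | single_add v n D _ _ ih =>
    rw [map_add, map_add, ih, smul_add]
    congr 1
    rw [Divisor.pullback_single, map_sum]
    have h1 : ∀ w ∈ v.fiber F',
        Divisor.pushforward F (Finsupp.single w (n * (w.ramificationIndex F : ℤ))) =
          Finsupp.single v (n * ((w.ramificationIndex F : ℤ) * (w.inertiaDeg F : ℤ))) := by
      intro w hw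
      rw [Divisor.pushforward_single, Place.mem_fiber.mp hw, mul_assoc]
    rw [Finset.sum_congr rfl h1, ← Finsupp.single_finsetSum, ← Finset.mul_sum,
      SumRamificationInertia.sum_ramificationIndex_mul_inertiaDeg (K := K) (F := F) (F' := F') v]
    rw [Finsupp.smul_single, nsmul_eq_mul, mul_comm]

/-- **(L2)** If the pullback of `D` is principal, `m • D` is principal and `m` is prime to the
degree, then `D` is principal. -/
theorem mem_principal_of_pullback_mem_principal [Module.Finite F F']
    [SumRamificationInertia K F F'] (H : Divisor.PushforwardNormFormula K F F')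
    {m : ℕ} (hm : Nat.Coprime m (Module.finrank F F')) {D : Divisor K F}
    (hmD : m • D ∈ Divisor.principal (K := K) (F := F))
    (hD : Divisor.pullback F' D ∈ Divisor.principal (K := K) (F := F')) :
    D ∈ Divisor.principal (K := K) (F := F) := by
  have h1 : (Module.finrank F F') • D ∈ Divisor.principal (K := K) (F := F) := by
    rw [← pushforward_pullback]
    exact Divisor.isPrincipal_pushforward_of_normFormula H hD
  have h2 : ((m : ℤ) * Nat.gcdA m (Module.finrank F F') +
      (Module.finrank F F' : ℤ) * Nat.gcdB m (Module.finrank F F')) = 1 := by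
    have := Nat.gcd_eq_gcd_ab m (Module.finrank F F')
    rw [hm.gcd_eq_one] at this
    exact_mod_cast this.symm
  have h3 : D = (Nat.gcdA m (Module.finrank F F')) • (m • D) +
      (Nat.gcdB m (Module.finrank F F')) • ((Module.finrank F F') • D) := by
    rw [← natCast_zsmul D m, ← natCast_zsmul D (Module.finrank F F'), smul_smul, smul_smul,
      ← add_smul, mul_comm _ (m : ℤ), mul_comm _ (Module.finrank F F' : ℤ), h2, one_smul]
  rw [h3]
  exact add_mem (AddSubgroup.zsmul_mem _ hmD _) (AddSubgroup.zsmul_mem _ h1 _)

end PushPull

section Aux

variable {L k : Type*} [Field L] [Field k]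
variable {F F' : Type*} [Field F] [Field F']
  [Algebra L F] [Algebra L F'] [Algebra F F'] [IsScalarTower L F F']
  [Algebra.IsIntegral F F'] [HasPrincipalDivisors L F']
variable {Fb Fb' : Type*} [Field Fb] [Field Fb']
  [Algebra k Fb] [Algebra k Fb'] [Algebra Fb Fb'] [IsScalarTower k Fb Fb']
  [Algebra.IsIntegral Fb Fb'] [HasPrincipalDivisors k Fb']

/-- **Auxiliary level glue** (divisor form).  Let `r`, `r'` be maps on places of `F ⊆ F'` to
places of `Fb ⊆ Fb'` such that `r'_* π^* = π̄^* r_*` on principal divisors.  If reduction along
`r'` is injective on classes of order `m`, and `m` is prime to `[F' : F]`, then reduction along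
`r` is injective on classes of order `m`. -/
theorem mem_principal_of_auxLevel [Module.Finite F F'] [SumRamificationInertia L F F']
    (H : Divisor.PushforwardNormFormula L F F')
    (r : Place L F → Place k Fb) (r' : Place L F' → Place k Fb')
    (hcompat : ∀ D ∈ Divisor.principal (K := L) (F := F),
      Finsupp.mapDomain r' (Divisor.pullback F' D) =
        Divisor.pullback Fb' (Finsupp.mapDomain r D))
    {m : ℕ} (hm0 : m ≠ 0) (hm : Nat.Coprime m (Module.finrank F F'))
    (hS18' : ∀ D' : Divisor L F', m • D' ∈ Divisor.principal (K := L) (F := F') →
      Finsupp.mapDomain r' D' ∈ Divisor.principal (K := k) (F := Fb') →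
      D' ∈ Divisor.principal (K := L) (F := F'))
    {D : Divisor L F} (hmD : m • D ∈ Divisor.principal (K := L) (F := F))
    (hrD : Finsupp.mapDomain r D ∈ Divisor.principal (K := k) (F := Fb)) :
    D ∈ Divisor.principal (K := L) (F := F) := by
  refine mem_principal_of_pullback_mem_principal H hm hmD (hS18' _ ?_ ?_)
  · rw [← map_nsmul]
    exact Divisor.pullback_mem_principal hmD
  · have h1 : Finsupp.mapDomain r' (Divisor.pullback F' D) =
        Divisor.pullback Fb' (Finsupp.mapDomain r D) :=
      eq_of_agree_on_principal_of_nsmul_mem
        ((Finsupp.mapDomain.addMonoidHom r').comp (Divisor.pullback F'))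
        ((Divisor.pullback Fb').comp (Finsupp.mapDomain.addMonoidHom r)) hcompat hm0 hmD
    rw [h1]
    exact Divisor.pullback_mem_principal hrD

end Aux

end Fermat.Agent.H96
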