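import Mathlib
import Fermat.Prelude.Def_ModularCurve_ReductionModL
import Fermat.Prelude.Def_AlgebraicCurve_Correspondence
import Fermat.Agent.H96.ESD.AuxLevel

/-!
# P-ES / ES-D glue: level compatibility of place reductions on torsion classes (helper96)

Let `F = F_L(N) ⊆ F' = F_L(N')` and `F_k(N) ⊆ F_k(N')` (inclusions of subfields of `L((q))`,
`k((q))`), and let `r`, `r'` be ANY two maps on places satisfying the prelude axioms
`IsPlaceReductionAlong` at level `N`, `N'`.  Then `r'_* ∘ π^* = π̄^* ∘ r_*` on principal
divisors (if principal divisors of `F` are generated by integral ones), hence on every divisor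
of torsion class.
-/

set_option autoImplicit false

noncomputable section

namespace Fermat.Agent.H96

open AlgebraicCurve ModularCurve

section Compat

variable {L : Type*} [Field L] [Algebra ℚ L] {A : ValuationSubring L}
variable {k : Type*} [Field k] {π : A →+* k} {N N' : ℕ}
variable (hFF' : laurentBaseChange L (modularFunctionFieldFull N) ≤
  laurentBaseChange L (modularFunctionFieldFull N'))
variable (hkk' : modularFunctionFieldFullC k N ≤ modularFunctionFieldFullC k N')
variable [HasPrincipalDivisors L (laurentBaseChange L (modularFunctionFieldFull N'))]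
variable [HasPrincipalDivisors k (modularFunctionFieldFullC k N')]
variable (hφ : (IntermediateField.inclusion hFF').toRingHom.IsIntegral)
variable (hψ : (IntermediateField.inclusion hkk').toRingHom.IsIntegral)
variable {r : Place L (laurentBaseChange L (modularFunctionFieldFull N)) →
  Place k (modularFunctionFieldFullC k N)}
variable {r' : Place L (laurentBaseChange L (modularFunctionFieldFull N')) →
  Place k (modularFunctionFieldFullC k N')}

include hFF' hkk' in
/-- `r'_* π^* = π̄^* r_*` on integral principal divisors. -/
theorem mapDomain_pullbackAlong_of_mem_integral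
    (hr : IsPlaceReductionAlong A π N r) (hr' : IsPlaceReductionAlong A π N' r')
    {D : Divisor L (laurentBaseChange L (modularFunctionFieldFull N))}
    (hD : D ∈ integralPrincipalDivisors A π N) :
    Finsupp.mapDomain r' (Divisor.pullbackAlong (IntermediateField.inclusion hFF') hφ D) =
      Divisor.pullbackAlong (IntermediateField.inclusion hkk') hψ (Finsupp.mapDomain r D) := by
  obtain ⟨y, hy, hyk, hne, hDy⟩ := hD
  ext Q
  have h1 : ∀ P : Place L (laurentBaseChange L (modularFunctionFieldFull N')),
      Divisor.pullbackAlong (IntermediateField.inclusion hFF') hφ D P =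
        P.ord (⟨coeffMap A.subtype y, hFF' hy⟩ :
          laurentBaseChange L (modularFunctionFieldFull N')) := by
    intro P
    letI := algebraAlong (IntermediateField.inclusion hFF')
    haveI := isScalarTower_along (IntermediateField.inclusion hFF')
    haveI := isIntegral_along (IntermediateField.inclusion hFF') hφ
    exact Divisor.pullback_apply_eq_ord hDy P
  rw [hr'.2 y (hFF' hy) (hkk' hyk) hne _ h1 Q]
  have h2 : ∀ Q₀ : Place k (modularFunctionFieldFullC k N),
      Finsupp.mapDomain r D Q₀ = Q₀.ord (⟨coeffMap π y, hyk⟩ : modularFunctionFieldFullC k N) :=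
    fun Q₀ => hr.2 y hy hyk hne D hDy Q₀
  letI := algebraAlong (IntermediateField.inclusion hkk')
  haveI := isScalarTower_along (IntermediateField.inclusion hkk')
  haveI := isIntegral_along (IntermediateField.inclusion hkk') hψ
  exact (Divisor.pullback_apply_eq_ord h2 Q).symm

include hFF' hkk' in
/-- `r'_* π^* = π̄^* r_*` on principal divisors. -/
theorem mapDomain_pullbackAlong_of_mem_principal
    (hr : IsPlaceReductionAlong A π N r) (hr' : IsPlaceReductionAlong A π N' r')
    (hgen : PrincipalGeneratedByIntegral A π N)
    {D : Divisor L (laurentBaseChange L (modularFunctionFieldFull N))}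
    (hD : D ∈ Divisor.principal (K := L) (F := laurentBaseChange L (modularFunctionFieldFull N))) :
    Finsupp.mapDomain r' (Divisor.pullbackAlong (IntermediateField.inclusion hFF') hφ D) =
      Divisor.pullbackAlong (IntermediateField.inclusion hkk') hψ (Finsupp.mapDomain r D) := by
  have key : Set.EqOn
      ((Finsupp.mapDomain.addMonoidHom r').comp
        (Divisor.pullbackAlong (IntermediateField.inclusion hFF') hφ))
      ((Divisor.pullbackAlong (IntermediateField.inclusion hkk') hψ).comp
        (Finsupp.mapDomain.addMonoidHom r))
      (AddSubgroup.closure (integralPrincipalDivisors A π N)) :=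
    AddMonoidHom.eqOn_closure fun E hE =>
      mapDomain_pullbackAlong_of_mem_integral hFF' hkk' hφ hψ hr hr' hE
  exact key (hgen hD)

include hFF' hkk' in
/-- `r'_* π^* = π̄^* r_*` on every divisor of torsion class. -/
theorem mapDomain_pullbackAlong_of_nsmul_mem_principal
    (hr : IsPlaceReductionAlong A π N r) (hr' : IsPlaceReductionAlong A π N' r')
    (hgen : PrincipalGeneratedByIntegral A π N) {m : ℕ} (hm : m ≠ 0)
    {D : Divisor L (laurentBaseChange L (modularFunctionFieldFull N))}
    (hD : m • D ∈
      Divisor.principal (K := L) (F := laurentBaseChange L (modularFunctionFieldFull N))) :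
    Finsupp.mapDomain r' (Divisor.pullbackAlong (IntermediateField.inclusion hFF') hφ D) =
      Divisor.pullbackAlong (IntermediateField.inclusion hkk') hψ (Finsupp.mapDomain r D) :=
  eq_of_agree_on_principal_of_nsmul_mem
    ((Finsupp.mapDomain.addMonoidHom r').comp
      (Divisor.pullbackAlong (IntermediateField.inclusion hFF') hφ))
    ((Divisor.pullbackAlong (IntermediateField.inclusion hkk') hψ).comp
      (Finsupp.mapDomain.addMonoidHom r))
    (fun _ hE => mapDomain_pullbackAlong_of_mem_principal hFF' hkk' hφ hψ hr hr' hgen hE) hm hD

/-- Two place reductions at the same level agree on principal divisors. -/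
theorem mapDomain_eq_of_mem_principal {r₁ r₂ : Place L (laurentBaseChange L
      (modularFunctionFieldFull N)) → Place k (modularFunctionFieldFullC k N)}
    (hr₁ : IsPlaceReductionAlong A π N r₁) (hr₂ : IsPlaceReductionAlong A π N r₂)
    (hgen : PrincipalGeneratedByIntegral A π N)
    {D : Divisor L (laurentBaseChange L (modularFunctionFieldFull N))}
    (hD : D ∈ Divisor.principal (K := L) (F := laurentBaseChange L (modularFunctionFieldFull N))) :
    Finsupp.mapDomain r₁ D = Finsupp.mapDomain r₂ D := by
  have key0 : Set.EqOn (Finsupp.mapDomain.addMonoidHom r₁ :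
      Divisor L (laurentBaseChange L (modularFunctionFieldFull N)) →+
        Divisor k (modularFunctionFieldFullC k N)) (Finsupp.mapDomain.addMonoidHom r₂)
      (integralPrincipalDivisors A π N) := by
    intro E hE
    obtain ⟨y, hy, hyk, hne, hDy⟩ := hE
    ext Q
    change Finsupp.mapDomain r₁ E Q = Finsupp.mapDomain r₂ E Q
    rw [hr₁.2 y hy hyk hne E hDy Q, hr₂.2 y hy hyk hne E hDy Q]
  exact AddMonoidHom.eqOn_closure key0 (hgen hD)

/-- **Torsion-class uniqueness of the reduction.**  Two place reductions at the same level
induce the same divisor `r_* D` for every divisor `D` of torsion class. -/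
theorem mapDomain_eq_of_nsmul_mem_principal {r₁ r₂ : Place L (laurentBaseChange L
      (modularFunctionFieldFull N)) → Place k (modularFunctionFieldFullC k N)}
    (hr₁ : IsPlaceReductionAlong A π N r₁) (hr₂ : IsPlaceReductionAlong A π N r₂)
    (hgen : PrincipalGeneratedByIntegral A π N) {m : ℕ} (hm : m ≠ 0)
    {D : Divisor L (laurentBaseChange L (modularFunctionFieldFull N))}
    (hD : m • D ∈
      Divisor.principal (K := L) (F := laurentBaseChange L (modularFunctionFieldFull N))) :
    Finsupp.mapDomain r₁ D = Finsupp.mapDomain r₂ D :=
  eq_of_agree_on_principal_of_nsmul_mem (Finsupp.mapDomain.addMonoidHom r₁)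
    (Finsupp.mapDomain.addMonoidHom r₂)
    (fun _ hE => mapDomain_eq_of_mem_principal hr₁ hr₂ hgen hE) hm hD

end Compat

end Fermat.Agent.H96
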