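import Mathlib
import Fermat.Prelude.Def_ModularCurve_ReductionModL
import Fermat.Prelude.Def_AlgebraicCurve_Correspondence
import Fermat.Agent.H96.ESD.AuxLevel
import Fermat.Agent.H96.ESD.AuxLevelCompat

/-!
# P-ES / ES-D glue: S18 at level `N` from S18 at an auxiliary level `N'` (helper96)

`s18_of_auxLevel`: the conclusion of S18 at `(N, ℓ)` follows from the conclusion of S18 at
`(N', ℓ)` whenever `F_N ⊆ F_N'`, `F_{k,N} ⊆ F_{k,N'}`, the degree `[F_N' : F_N]` is a power of
`ℓ`, and reduction inputs exist at level `N'`.
-/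

set_option autoImplicit false

noncomputable section

namespace Fermat.Agent.H96

open AlgebraicCurve ModularCurve

section General

variable {K F F' : Type*} [Field K] [Field F] [Field F']
  [Algebra K F] [Algebra K F'] [Algebra F F'] [IsScalarTower K F F']
  [Algebra.IsIntegral F F'] [HasPrincipalDivisors K F']

/-- Over a field of constants all of whose places have degree one, the fundamental identity
`Σ e_w deg w = n deg v` is the identity `Σ e_w f_w = n`. -/
theorem sumRamificationInertia_of_deg_one [FundamentalIdentity K F F']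
    (hF : ∀ v : Place K F, v.deg = 1) (hF' : ∀ w : Place K F', w.deg = 1) :
    SumRamificationInertia K F F' where
  sum_ramificationIndex_mul_inertiaDeg v := by
    have h1 := FundamentalIdentity.sum_ramificationIndex_mul_deg (K := K) (F := F) (F' := F') v
    rw [hF v, Nat.cast_one, mul_one] at h1
    rw [← h1]
    refine Finset.sum_congr rfl fun w _ => ?_
    have h2 := w.deg_restrict_mul_inertiaDeg (F := F)
    rw [hF, hF' w, one_mul] at h2
    rw [h2, hF' w]

/-- A divisor a nonzero multiple of which is principal has degree zero. -/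
theorem degree_eq_zero_of_nsmul_mem_principal {K F : Type*} [Field K] [Field F] [Algebra K F]
    [HasPrincipalDivisors K F] {m : ℕ} (hm : m ≠ 0) {D : Divisor K F}
    (hD : m • D ∈ Divisor.principal (K := K) (F := F)) : Divisor.degree D = 0 := by
  obtain ⟨f, hf, hDf⟩ := hD
  obtain ⟨E, hE, hE0⟩ := HasPrincipalDivisors.exists_divisor (K := K) f hf
  have h1 : m • D = E := Finsupp.ext fun v => by rw [hDf v, hE v]
  have h2 : Divisor.degree (m • D) = 0 := by rw [h1, hE0]
  rw [map_nsmul, smul_eq_zero] at h2
  rcases h2 with h2 | h2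
  · exact absurd h2 hm
  · exact h2

end General

section Pic0Dict

variable {K F : Type*} [Field K] [Field F] [Algebra K F]

theorem pic0_mk_eq_zero_iff (D : Divisor.degZero (K := K) (F := F)) :
    Pic0.mk D = 0 ↔ (D : Divisor K F) ∈ Divisor.principal (K := K) (F := F) := by
  unfold Pic0.mk
  rw [QuotientAddGroup.eq_zero_iff, AddSubgroup.mem_addSubgroupOf]

theorem pic0_nsmul_mk_eq_zero_iff (m : ℕ) (D : Divisor.degZero (K := K) (F := F)) :
    m • Pic0.mk D = 0 ↔ m • (D : Divisor K F) ∈ Divisor.principal (K := K) (F := F) := by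
  have h : m • Pic0.mk D = Pic0.mk (m • D) := rfl
  rw [h, pic0_mk_eq_zero_iff]
  rfl

end Pic0Dict

section ModL

set_option synthInstance.maxHeartbeats 400000

variable {A : ValuationSubring (AlgebraicClosure ℚ)} {N N' : ℕ}

/-- Divisor form of the hypothesis `reductionModL A N z = 0`. -/
theorem reductionModL_mk_eq_zero_iff (h : ReductionInputsModL A N)
    (D : Divisor.degZero (K := AlgebraicClosure ℚ) (F := modularFunctionFieldBar N)) :
    reductionModL A N (Pic0.mk D) = 0 ↔
      Finsupp.mapDomain (placeReductionModL h)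
          (D : Divisor (AlgebraicClosure ℚ) (modularFunctionFieldBar N)) ∈
        Divisor.principal (K := IsLocalRing.ResidueField A)
          (F := modularFunctionFieldFullC (IsLocalRing.ResidueField A) N) := by
  rw [reductionModL_mk h D, pic0_mk_eq_zero_iff]
  rfl

variable (hFF' : modularFunctionFieldBar N ≤ modularFunctionFieldBar N')
variable (hkk' : modularFunctionFieldFullC (IsLocalRing.ResidueField A) N ≤
  modularFunctionFieldFullC (IsLocalRing.ResidueField A) N')
variable [HasPrincipalDivisors (AlgebraicClosure ℚ) (modularFunctionFieldBar N')]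
variable [HasPrincipalDivisors (IsLocalRing.ResidueField A)
  (modularFunctionFieldFullC (IsLocalRing.ResidueField A) N')]
variable (hφ : (IntermediateField.inclusion hFF').toRingHom.IsIntegral)
variable (hψ : (IntermediateField.inclusion hkk').toRingHom.IsIntegral)

include hFF' hkk' hφ hψ in
/-- **S18 at level `N` from S18 at an auxiliary level `N'`** of degree prime to `m`. -/
theorem s18_of_auxLevel_coprime
    (hFI : FundamentalIdentityAlong (AlgebraicClosure ℚ) (IntermediateField.inclusion hFF') hφ)
    (hfin : FiniteAlong (AlgebraicClosure ℚ) (IntermediateField.inclusion hFF'))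
    (hNF : NormFormulaAlong (AlgebraicClosure ℚ) (IntermediateField.inclusion hFF') hfin)
    (hdeg : ∀ v : Place (AlgebraicClosure ℚ) (modularFunctionFieldBar N), v.deg = 1)
    (hdeg' : ∀ v : Place (AlgebraicClosure ℚ) (modularFunctionFieldBar N'), v.deg = 1)
    (h' : ReductionInputsModL A N')
    (m : ℕ) (hm0 : m ≠ 0)
    (hcop : Nat.Coprime m (finrankAlong (AlgebraicClosure ℚ) (IntermediateField.inclusion hFF')))
    (hS18' : ∀ z : JZero N', m • z = 0 → reductionModL A N' z = 0 → z = 0)
    (h : ReductionInputsModL A N)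
    (z : JZero N) (hmz : m • z = 0) (hz : reductionModL A N z = 0) : z = 0 := by
  obtain ⟨D, rfl⟩ := Pic0.mk_surjective z
  rw [pic0_nsmul_mk_eq_zero_iff] at hmz
  rw [reductionModL_mk_eq_zero_iff h] at hz
  rw [pic0_mk_eq_zero_iff]
  -- the pulled-back class
  have hD'0 : Divisor.pullbackAlong (IntermediateField.inclusion hFF') hφ
      (D : Divisor (AlgebraicClosure ℚ) (modularFunctionFieldBar N)) ∈
      Divisor.degZero (K := AlgebraicClosure ℚ) (F := modularFunctionFieldBar N') :=
    Divisor.pullbackAlong_mem_degZero _ hφ hFI D.2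
  have hmD' : m • Divisor.pullbackAlong (IntermediateField.inclusion hFF') hφ
      (D : Divisor (AlgebraicClosure ℚ) (modularFunctionFieldBar N)) ∈
      Divisor.principal (K := AlgebraicClosure ℚ) (F := modularFunctionFieldBar N') := by
    rw [← map_nsmul]
    exact Divisor.isPrincipal_pullbackAlong _ hφ hmz
  have hred : Finsupp.mapDomain (placeReductionModL h')
      (Divisor.pullbackAlong (IntermediateField.inclusion hFF') hφ
        (D : Divisor (AlgebraicClosure ℚ) (modularFunctionFieldBar N))) ∈
      Divisor.principal (K := IsLocalRing.ResidueField A)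
        (F := modularFunctionFieldFullC (IsLocalRing.ResidueField A) N') := by
    rw [mapDomain_pullbackAlong_of_nsmul_mem_principal hFF' hkk' hφ hψ
      (isPlaceReductionModL_placeReductionModL h) (isPlaceReductionModL_placeReductionModL h')
      h.choose_spec.2 hm0 hmz]
    exact Divisor.isPrincipal_pullbackAlong _ hψ hz
  have hz' := hS18' (Pic0.mk ⟨_, hD'0⟩)
    ((pic0_nsmul_mk_eq_zero_iff m ⟨_, hD'0⟩).2 hmD')
    ((reductionModL_mk_eq_zero_iff h' ⟨_, hD'0⟩).2 hred)
  rw [pic0_mk_eq_zero_iff] at hz'
  -- descend
  letI := algebraAlong (IntermediateField.inclusion hFF')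
  haveI := isScalarTower_along (IntermediateField.inclusion hFF')
  haveI := isIntegral_along (IntermediateField.inclusion hFF') hφ
  haveI : FundamentalIdentity (AlgebraicClosure ℚ) (modularFunctionFieldBar N)
      (modularFunctionFieldBar N') := hFI
  haveI : Module.Finite (modularFunctionFieldBar N) (modularFunctionFieldBar N') := hfin
  haveI : SumRamificationInertia (AlgebraicClosure ℚ) (modularFunctionFieldBar N)
      (modularFunctionFieldBar N') := sumRamificationInertia_of_deg_one hdeg hdeg'
  exact mem_principal_of_pullback_mem_principal hNF hcop hmz hz'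

include hFF' hkk' hφ hψ in
/-- **S18 at level `N` from S18 at an auxiliary level `N'` of `ℓ`-power degree**, in the exact
shape of the frozen statement. -/
theorem s18_of_auxLevel {ℓ : ℕ} [Fact ℓ.Prime]
    (hFI : FundamentalIdentityAlong (AlgebraicClosure ℚ) (IntermediateField.inclusion hFF') hφ)
    (hfin : FiniteAlong (AlgebraicClosure ℚ) (IntermediateField.inclusion hFF'))
    (hNF : NormFormulaAlong (AlgebraicClosure ℚ) (IntermediateField.inclusion hFF') hfin)
    (hdeg : ∀ v : Place (AlgebraicClosure ℚ) (modularFunctionFieldBar N), v.deg = 1)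
    (hdeg' : ∀ v : Place (AlgebraicClosure ℚ) (modularFunctionFieldBar N'), v.deg = 1)
    (hpow : ∃ a : ℕ,
      finrankAlong (AlgebraicClosure ℚ) (IntermediateField.inclusion hFF') = ℓ ^ a)
    (h' : ReductionInputsModL A N')
    (hS18' : ∀ m : ℕ, ¬ ℓ ∣ m → ∀ z : JZero N', m • z = 0 → reductionModL A N' z = 0 → z = 0)
    (h : ReductionInputsModL A N) (m : ℕ) (hm : ¬ ℓ ∣ m)
    (z : JZero N) (hmz : m • z = 0) (hz : reductionModL A N z = 0) : z = 0 := by
  obtain ⟨a, ha⟩ := hpow
  have hm0 : m ≠ 0 := fun h0 => hm (h0 ▸ dvd_zero ℓ)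
  have hcop : Nat.Coprime m
      (finrankAlong (AlgebraicClosure ℚ) (IntermediateField.inclusion hFF')) := by
    rw [ha]
    exact (Nat.Coprime.pow_right a
      ((Nat.Prime.coprime_iff_not_dvd Fact.out).2 hm).symm)
  exact s18_of_auxLevel_coprime hFF' hkk' hφ hψ hFI hfin hNF hdeg hdeg' h' m hm0 hcop
    (hS18' m hm) h z hmz hz

end ModL

end Fermat.Agent.H96
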